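/-
S36 / [AUX] tools (helper16): **Sturm's bound at level `Γ₀(N)` in characteristic zero, for bare
functions, and honest `ModularForm`s for level-raised level-one forms.**

* `ofFormLike` : bundle a form-like function on `Γ₀(N)` into a `ModularForm (Gamma0 N) k`;
* `scaleForm N d hd f` : `f(d ·)` for a level-one `f`, `d ∣ N`, as a `ModularForm (Gamma0 N) k`,
  with `qExpansion_scaleForm` (`= expand d`);
* `sturm_Gamma0`, `sturm_prime`, `eq_of_coeff_eq` : Sturm's bound `k ψ(N) / 12` (prelude) with the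
  index evaluated (`ψ = dedekindPsi`, `ψ(p) = p + 1`);
* `IsFormLike.eq_zero_of_coeff`, `IsFormLike.eq_of_coeff_eq` : the same for bare functions;
* `isHol_neg / _sub / _smul`, `qExpansion_neg / _sub / _smul` : the missing linear rules of the
  `IsHol` calculus of `S24/QExpHol`; `IsFormLike.isHol_Gamma0`.
-/
import Mathlib
import Fermat.Prelude.Thm_ModularForm_sturm_bound_Gamma0
import Fermat.Prelude.Thm_CongruenceSubgroup_one_mem_strictPeriods_Gamma0
import Fermat.Agent.M2.P1Psi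
import Fermat.Agent.N4.Kronecker
import Fermat.Agent.S16.Bridge.ScaleForm

set_option autoImplicit false
set_option linter.unusedSectionVars false

namespace Fermat.Agent.S36.AuxTools.SturmPrime

open UpperHalfPlane ModularForm MatrixGroups CongruenceSubgroup Filter Function
open Fermat.Agent.M2 Fermat.Agent.S24.QExp Fermat.Agent.S16.Bridge
open scoped Manifold Topology

/-! ### Bundling -/

/-- A form-like function on `Γ₀(N)` as a `ModularForm`. -/
noncomputable def ofFormLike (N : ℕ) [NeZero N] {k : ℤ} {F : ℍ → ℂ}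
    (hF : IsFormLike (Gamma0 N) k F) : ModularForm (Gamma0 N) k :=
  (isFormLike_iff_isMF.mp hF).toModularForm (Gamma0 N) k

@[simp] theorem coe_ofFormLike (N : ℕ) [NeZero N] {k : ℤ} {F : ℍ → ℂ}
    (hF : IsFormLike (Gamma0 N) k F) : ⇑(ofFormLike N hF) = F := rfl

/-- `f(d ·)` for a level-one modular form `f` and `d ∣ N`, as a modular form on `Γ₀(N)`. -/
noncomputable def scaleForm (N d : ℕ) [NeZero N] [NeZero d] (hd : d ∣ N) {k : ℤ}
    (f : ModularForm 𝒮ℒ k) : ModularForm (Gamma0 N) k :=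
  ofFormLike N (IsFormLike.ofLevelOne_comp_scaleH f hd)

@[simp] theorem coe_scaleForm (N d : ℕ) [NeZero N] [NeZero d] (hd : d ∣ N) {k : ℤ}
    (f : ModularForm 𝒮ℒ k) : ⇑(scaleForm N d hd f) = ⇑f ∘ JN.scaleH d := rfl

theorem scaleForm_apply (N d : ℕ) [NeZero N] [NeZero d] (hd : d ∣ N) {k : ℤ}
    (f : ModularForm 𝒮ℒ k) (z : ℍ) : scaleForm N d hd f z = f (JN.scaleH d z) := rfl

theorem qExpansion_scaleForm (N d : ℕ) [NeZero N] [NeZero d] (hd : d ∣ N) {k : ℤ}
    (f : ModularForm 𝒮ℒ k) :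
    qExpansion 1 (scaleForm N d hd f) =
      PowerSeries.expand d (NeZero.ne d) (qExpansion 1 f) := by
  rw [coe_scaleForm]
  exact (IsFormLike.ofLevelOne f).qExpansion_comp_scaleH d

/-! ### Sturm's bound -/

/-- **Sturm's bound at level `Γ₀(N)`** with the index evaluated. -/
theorem sturm_Gamma0 (N : ℕ) [NeZero N] {k : ℤ} (f : ModularForm (Gamma0 N) k)
    (h : ∀ n : ℕ, n ≤ (k * (ModularCurve.dedekindPsi N : ℤ)).toNat / 12 →
      (qExpansion 1 f).coeff n = 0) : f = 0 := by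
  refine ModularForm.sturm_bound_Gamma0 N f ?_
  rw [Fermat.Agent.M2.P1.index_Gamma0 N (NeZero.ne N)]
  exact h

/-- **Sturm's bound at prime level.** -/
theorem sturm_prime (p : ℕ) [hp : Fact p.Prime] {k : ℤ} {w : ℕ} (hk : k = (w : ℤ))
    (f : ModularForm (Gamma0 p) k)
    (h : ∀ n : ℕ, n ≤ w * (p + 1) / 12 → (qExpansion 1 f).coeff n = 0) : f = 0 := by
  have : NeZero p := ⟨hp.out.ne_zero⟩
  refine sturm_Gamma0 p f ?_
  have e : (k * (ModularCurve.dedekindPsi p : ℤ)).toNat = w * (p + 1) := by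
    rw [Fermat.Agent.N4.Kronecker.dedekindPsi_prime p, hk]
    exact_mod_cast Int.toNat_natCast (w * (p + 1))
  rw [e]
  exact h

/-- Two modular forms on `Γ₀(N)` whose first `k ψ(N) / 12 + 1` coefficients agree are equal. -/
theorem eq_of_coeff_eq (N : ℕ) [NeZero N] {k : ℤ} (f g : ModularForm (Gamma0 N) k)
    (h : ∀ n : ℕ, n ≤ (k * (ModularCurve.dedekindPsi N : ℤ)).toNat / 12 →
      (qExpansion 1 f).coeff n = (qExpansion 1 g).coeff n) : f = g := by
  have hΓ : (1 : ℝ) ∈ ((Gamma0 N : Subgroup (GL (Fin 2) ℝ))).strictPeriods :=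
    CongruenceSubgroup.one_mem_strictPeriods_Gamma0 N
  have h0 : f - g = 0 := by
    refine sturm_Gamma0 N (f - g) fun n hn => ?_
    rw [FunLike.coe_sub, ModularForm.qExpansion_sub one_pos hΓ, map_sub, h n hn, sub_self]
  exact sub_eq_zero.mp h0

/-! ### Function-level versions -/

theorem _root_.Fermat.Agent.S16.Bridge.IsFormLike.isHol_Gamma0 {N : ℕ} [NeZero N] {k : ℤ}
    {F : ℍ → ℂ} (hF : IsFormLike (Gamma0 N) k F) : IsHol F :=
  hF.isHol (T_mem_Gamma0 N)

/-- **Sturm's bound for bare functions.** -/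
theorem _root_.Fermat.Agent.S16.Bridge.IsFormLike.eq_zero_of_coeff {N : ℕ} [NeZero N] {k : ℤ}
    {F : ℍ → ℂ} (hF : IsFormLike (Gamma0 N) k F)
    (h : ∀ n : ℕ, n ≤ (k * (ModularCurve.dedekindPsi N : ℤ)).toNat / 12 →
      (qExpansion 1 F).coeff n = 0) : F = 0 := by
  have := sturm_Gamma0 N (ofFormLike N hF) (by simpa using h)
  have h2 := congrArg (fun g : ModularForm (Gamma0 N) k => (g : ℍ → ℂ)) this
  simpa using h2

theorem isHol_neg {F : ℍ → ℂ} (hF : IsHol F) : IsHol (-F) := by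
  have := (IsHol.const (-1)).mul hF
  have e : (fun _ : ℍ => (-1 : ℂ)) * F = -F := by
    funext z; simp
  rwa [e] at this

theorem isHol_sub {F G : ℍ → ℂ} (hF : IsHol F) (hG : IsHol G) : IsHol (F - G) := by
  rw [sub_eq_add_neg]
  exact hF.add (isHol_neg hG)

theorem isHol_smul (c : ℂ) {F : ℍ → ℂ} (hF : IsHol F) : IsHol (c • F) := by
  have := (IsHol.const c).mul hF
  have e : (fun _ : ℍ => c) * F = c • F := by
    funext z; simp
  rwa [e] at this

theorem qExpansion_smul (c : ℂ) {F : ℍ → ℂ} (hF : IsHol F) :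
    qExpansion 1 (c • F) = c • qExpansion 1 F :=
  UpperHalfPlane.qExpansion_smul hF.analyticAt c

theorem qExpansion_neg {F : ℍ → ℂ} (hF : IsHol F) :
    qExpansion 1 (-F) = -qExpansion 1 F :=
  UpperHalfPlane.qExpansion_neg hF.analyticAt

theorem qExpansion_sub {F G : ℍ → ℂ} (hF : IsHol F) (hG : IsHol G) :
    qExpansion 1 (F - G) = qExpansion 1 F - qExpansion 1 G :=
  UpperHalfPlane.qExpansion_sub hF.analyticAt hG.analyticAt

/-- Two form-like functions on `Γ₀(N)` whose first `k ψ(N) / 12 + 1` coefficients agree are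
equal. -/
theorem _root_.Fermat.Agent.S16.Bridge.IsFormLike.eq_of_coeff_eq {N : ℕ} [NeZero N] {k : ℤ}
    {F G : ℍ → ℂ} (hF : IsFormLike (Gamma0 N) k F) (hG : IsFormLike (Gamma0 N) k G)
    (h : ∀ n : ℕ, n ≤ (k * (ModularCurve.dedekindPsi N : ℤ)).toNat / 12 →
      (qExpansion 1 F).coeff n = (qExpansion 1 G).coeff n) : F = G := by
  have h0 : F - G = 0 := by
    refine (hF.sub hG).eq_zero_of_coeff fun n hn => ?_
    rw [qExpansion_sub hF.isHol_Gamma0 hG.isHol_Gamma0, map_sub, h n hn, sub_self]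
  exact sub_eq_zero.mp h0

end Fermat.Agent.S36.AuxTools.SturmPrime
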